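/-
NEWFORM library (helper683) — part 1: q-coefficient calculus of the Prelude Hecke operators on
`CuspForm (Gamma0 N) k`, and the dictionary

  `IsNormalizedEigenform f`  ⟺  `a₁ = 1` and `f` is an eigenvector of all `T_p` (`p ∤ N`) and
                                  all `U_p` (`p ∣ N`).
-/
import Mathlib
import Fermat.Prelude.Def_CuspForm_Newforms
import Fermat.Prelude.Def_ModularForm_HeckeOperatorForms
import Fermat.Prelude.Thm_ModularFormClass_qCoeff_heckeT
import Fermat.Prelude.Thm_ModularFormClass_qCoeff_heckeU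
import Fermat.Prelude.Thm_CongruenceSubgroup_one_mem_strictPeriods_Gamma0

set_option autoImplicit false

open CongruenceSubgroup ModularFormClass ModularForm UpperHalfPlane

namespace Fermat.Agent.Lib.Newform.H683

variable {N : ℕ}

/-- The constant coefficient of a cusp form vanishes. -/
theorem qCoeff_zero_cusp (k : ℤ) (f : CuspForm (Gamma0 N) k) : qCoeff ⇑f 0 = 0 := by
  unfold qCoeff
  have h1 := CongruenceSubgroup.one_mem_strictPeriods_Gamma0 N
  exact CuspFormClass.qExpansion_coeff_zero f (by norm_num) h1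

theorem qCoeff_heckeT_cusp (k : ℤ) (f : CuspForm (Gamma0 N) k) {p : ℕ} (hp : p ≠ 0) (n : ℕ) :
    qCoeff (heckeT k p ⇑f) n = coeffHeckeT k p (qCoeff ⇑f) n :=
  ModularFormClass.qCoeff_heckeT f (CongruenceSubgroup.one_mem_strictPeriods_Gamma0 N) hp n

theorem qCoeff_heckeU_cusp (k : ℤ) (f : CuspForm (Gamma0 N) k) {p : ℕ} (hp : p ≠ 0) (n : ℕ) :
    qCoeff (heckeU k p ⇑f) n = coeffHeckeU p (qCoeff ⇑f) n :=
  ModularFormClass.qCoeff_heckeU f (CongruenceSubgroup.one_mem_strictPeriods_Gamma0 N) hp n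

/-- `q`-expansion principle for cusp forms on `Γ₀(N)`. -/
theorem cusp_eq_zero_of_qCoeff (k : ℤ) (f : CuspForm (Gamma0 N) k)
    (h : ∀ n, qCoeff ⇑f n = 0) : f = 0 := by
  have h1 := CongruenceSubgroup.one_mem_strictPeriods_Gamma0 N
  haveI : Fact (IsCusp OnePoint.infty
      (Subgroup.map (Matrix.SpecialLinearGroup.mapGL ℝ) (Gamma0 N))) :=
    ⟨Subgroup.isCusp_of_mem_strictPeriods one_pos h1⟩
  have hq : qExpansion 1 ⇑f = 0 := by
    ext n
    simpa [qCoeff] using h n
  have := (UpperHalfPlane.qExpansion_eq_zero_iff (h := 1) one_pos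
    (SlashInvariantFormClass.periodic_comp_ofComplex f h1) (CuspFormClass.holo f)
    (ModularFormClass.bdd_at_infty f)).mp hq
  exact DFunLike.coe_injective (by simpa using this)

theorem qCoeff_sub_cusp (k : ℤ) (f g : CuspForm (Gamma0 N) k) (n : ℕ) :
    qCoeff ⇑(f - g) n = qCoeff ⇑f n - qCoeff ⇑g n := by
  have h1 := CongruenceSubgroup.one_mem_strictPeriods_Gamma0 N
  unfold qCoeff
  rw [FunLike.coe_sub, UpperHalfPlane.qExpansion_sub
    (ModularFormClass.analyticAt_cuspFunction_zero f one_pos h1)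
    (ModularFormClass.analyticAt_cuspFunction_zero g one_pos h1)]
  simp

theorem qCoeff_smul_cusp (k : ℤ) (c : ℂ) (f : CuspForm (Gamma0 N) k) (n : ℕ) :
    qCoeff ⇑(c • f) n = c * qCoeff ⇑f n := by
  have h1 := CongruenceSubgroup.one_mem_strictPeriods_Gamma0 N
  unfold qCoeff
  rw [FunLike.coe_smul, UpperHalfPlane.qExpansion_smul
    (ModularFormClass.analyticAt_cuspFunction_zero f one_pos h1)]
  simp

theorem cusp_ext_qCoeff (k : ℤ) (f g : CuspForm (Gamma0 N) k)
    (h : ∀ n, qCoeff ⇑f n = qCoeff ⇑g n) : f = g := by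
  have := cusp_eq_zero_of_qCoeff k (f - g) (fun n => by rw [qCoeff_sub_cusp, h n, sub_self])
  exact sub_eq_zero.mp this

end Fermat.Agent.Lib.Newform.H683
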