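/-
NEWFORM library (helper683) — part 2: the dictionary

  `IsNormalizedEigenform f`  ⟺  `a₁ = 1` and `f` is an eigenvector of all `T_p` (`p ∤ N`) and
                                  all `U_p` (`p ∣ N`).
-/
import Fermat.Agent.Lib.Newform.H683.Coeff

set_option autoImplicit false

open CongruenceSubgroup ModularFormClass ModularForm UpperHalfPlane

namespace Fermat.Agent.Lib.Newform.H683

variable {N : ℕ}

/-! ### From the multiplicative relations to the Hecke relations -/

/-- `a(p^(e+1)) + p a(p^(e-1)) = a_p a(p^e)` for `p ∤ N` (with the convention that the second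
term is absent for `e = 0`). -/
theorem coeff_mul_prime_of_not_dvd
    {f : CuspForm (Gamma0 N) 2} (hf : f.IsNormalizedEigenform) {p : ℕ} (hp : p.Prime)
    (hpN : ¬ p ∣ N) (n : ℕ) :
    qCoeff ⇑f (n * p) + (if p ∣ n then (p : ℂ) * qCoeff ⇑f (n / p) else 0)
      = qCoeff ⇑f p * qCoeff ⇑f n := by
  rcases Nat.eq_zero_or_pos n with rfl | hn
  · simp [qCoeff_zero_cusp]
  obtain ⟨e, m, hm, rfl⟩ := Nat.exists_eq_pow_mul_and_not_dvd hn.ne' p hp.ne_one
  have hcop : ∀ j, Nat.Coprime (p ^ j) m := fun j =>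
    Nat.Coprime.pow_left j ((Nat.Prime.coprime_iff_not_dvd hp).mpr hm)
  have e1 : p ^ e * m * p = p ^ (e + 1) * m := by ring
  rw [e1, hf.qCoeff_mul_of_coprime _ _ (hcop _), hf.qCoeff_mul_of_coprime _ _ (hcop _)]
  rcases Nat.eq_zero_or_pos e with rfl | he
  · have : ¬ p ∣ p ^ 0 * m := by simpa using hm
    rw [if_neg this]
    simp [hf.qCoeff_one]
  · obtain ⟨r, rfl⟩ : ∃ r, e = r + 1 := ⟨e - 1, by omega⟩
    have hdvd : p ∣ p ^ (r + 1) * m := Dvd.dvd.mul_right (dvd_pow_self p (by omega)) m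
    rw [if_pos hdvd]
    have e2 : p ^ (r + 1) * m / p = p ^ r * m := by
      rw [pow_succ, mul_assoc, mul_comm p m, ← mul_assoc]
      exact Nat.mul_div_cancel _ hp.pos
    rw [e2, hf.qCoeff_mul_of_coprime _ _ (hcop _), hf.qCoeff_prime_pow_of_not_dvd p r hp hpN]
    ring

theorem coeff_mul_prime_of_dvd
    {f : CuspForm (Gamma0 N) 2} (hf : f.IsNormalizedEigenform) {p : ℕ} (hp : p.Prime)
    (hpN : p ∣ N) (n : ℕ) :
    qCoeff ⇑f (n * p) = qCoeff ⇑f p * qCoeff ⇑f n := by
  rcases Nat.eq_zero_or_pos n with rfl | hn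
  · simp [qCoeff_zero_cusp]
  obtain ⟨e, m, hm, rfl⟩ := Nat.exists_eq_pow_mul_and_not_dvd hn.ne' p hp.ne_one
  have hcop : ∀ j, Nat.Coprime (p ^ j) m := fun j =>
    Nat.Coprime.pow_left j ((Nat.Prime.coprime_iff_not_dvd hp).mpr hm)
  have e1 : p ^ e * m * p = p ^ (e + 1) * m := by ring
  rw [e1, hf.qCoeff_mul_of_coprime _ _ (hcop _), hf.qCoeff_mul_of_coprime _ _ (hcop _)]
  rcases Nat.eq_zero_or_pos e with rfl | he
  · simp [hf.qCoeff_one]
  · obtain ⟨r, rfl⟩ : ∃ r, e = r + 1 := ⟨e - 1, by omega⟩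
    rw [hf.qCoeff_prime_pow_of_dvd p r hp hpN]
    ring

/-- **(E1)** A normalized eigenform is an eigenvector of `T_p`, `p ∤ N`, with eigenvalue `a_p`. -/
theorem heckeTLin_eq_of_eigenform
    {f : CuspForm (Gamma0 N) 2} (hf : f.IsNormalizedEigenform) {p : ℕ} (hp : p.Prime)
    (hpN : ¬ p ∣ N) :
    CuspForm.heckeTLin 2 hp hpN f = qCoeff ⇑f p • f := by
  apply cusp_ext_qCoeff
  intro n
  rw [qCoeff_smul_cusp, CuspForm.coe_heckeTLin_apply, qCoeff_heckeT_cusp 2 f hp.ne_zero,
    coeffHeckeT_apply, ← coeff_mul_prime_of_not_dvd hf hp hpN n]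
  norm_num

/-- **(E1)** function-level version. -/
theorem heckeT_eq_of_eigenform
    {f : CuspForm (Gamma0 N) 2} (hf : f.IsNormalizedEigenform) {p : ℕ} (hp : p.Prime)
    (hpN : ¬ p ∣ N) :
    heckeT 2 p ⇑f = qCoeff ⇑f p • ⇑f := by
  have := congrArg (fun g : CuspForm (Gamma0 N) 2 => (⇑g : ℍ → ℂ)) (heckeTLin_eq_of_eigenform hf hp hpN)
  simpa using this

/-- **(E1)** A normalized eigenform is an eigenvector of `U_p`, `p ∣ N`, with eigenvalue `a_p`. -/
theorem heckeULin_eq_of_eigenform [NeZero N]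
    {f : CuspForm (Gamma0 N) 2} (hf : f.IsNormalizedEigenform) {p : ℕ} (hp : p.Prime)
    (hpN : p ∣ N) :
    CuspForm.heckeULin 2 hpN f = qCoeff ⇑f p • f := by
  apply cusp_ext_qCoeff
  intro n
  rw [qCoeff_smul_cusp, CuspForm.coe_heckeULin_apply, qCoeff_heckeU_cusp 2 f hp.ne_zero,
    coeffHeckeU_apply, coeff_mul_prime_of_dvd hf hp hpN n]

theorem heckeU_eq_of_eigenform [NeZero N]
    {f : CuspForm (Gamma0 N) 2} (hf : f.IsNormalizedEigenform) {p : ℕ} (hp : p.Prime)
    (hpN : p ∣ N) :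
    heckeU 2 p ⇑f = qCoeff ⇑f p • ⇑f := by
  have := congrArg (fun g : CuspForm (Gamma0 N) 2 => (⇑g : ℍ → ℂ)) (heckeULin_eq_of_eigenform hf hp hpN)
  simpa using this

/-! ### From the Hecke relations to the multiplicative relations -/

/-- Coefficientwise form of `T_p g = c • g`. -/
theorem coeff_of_heckeT_eq (g : CuspForm (Gamma0 N) 2) {p : ℕ} (hp : p.Prime) (c : ℂ)
    (h : heckeT 2 p ⇑g = c • ⇑g) (n : ℕ) :
    qCoeff ⇑g (n * p) + (if p ∣ n then (p : ℂ) * qCoeff ⇑g (n / p) else 0)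
      = c * qCoeff ⇑g n := by
  have h1 := qCoeff_heckeT_cusp 2 g hp.ne_zero n
  rw [h, coeffHeckeT_apply] at h1
  have h2 := qCoeff_smul_cusp 2 c g n
  rw [FunLike.coe_smul] at h2
  rw [← h2, h1]
  norm_num

/-- Coefficientwise form of `U_p g = c • g`. -/
theorem coeff_of_heckeU_eq (g : CuspForm (Gamma0 N) 2) {p : ℕ} (hp : p.Prime) (c : ℂ)
    (h : heckeU 2 p ⇑g = c • ⇑g) (n : ℕ) :
    qCoeff ⇑g (n * p) = c * qCoeff ⇑g n := by
  have h1 := qCoeff_heckeU_cusp 2 g hp.ne_zero n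
  rw [h, coeffHeckeU_apply] at h1
  have h2 := qCoeff_smul_cusp 2 c g n
  rw [FunLike.coe_smul] at h2
  rw [← h2, h1]

/-- If `g` is an eigenvector of every `T_p` (`p ∤ N`) and `U_p` (`p ∣ N`) and `a₁(g) = 0`,
then `g = 0`. -/
theorem eq_zero_of_eigen_of_coeff_one_eq_zero (g : CuspForm (Gamma0 N) 2)
    (hT : ∀ p : ℕ, p.Prime → ¬ p ∣ N → ∃ c : ℂ, heckeT 2 p ⇑g = c • ⇑g)
    (hU : ∀ p : ℕ, p.Prime → p ∣ N → ∃ c : ℂ, heckeU 2 p ⇑g = c • ⇑g)
    (h1 : qCoeff ⇑g 1 = 0) : g = 0 := by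
  apply cusp_eq_zero_of_qCoeff
  intro n
  induction n using Nat.strong_induction_on with
  | _ n ih =>
    rcases Nat.eq_zero_or_pos n with rfl | hn
    · exact qCoeff_zero_cusp 2 g
    rcases Nat.eq_or_lt_of_le (Nat.succ_le_of_lt hn) with h | h
    · rw [← h]; exact h1
    · have hn1 : n ≠ 1 := by omega
      obtain ⟨p, hp, hpn⟩ := Nat.exists_prime_and_dvd hn1
      obtain ⟨m, rfl⟩ := hpn
      have hm : 0 < m := Nat.pos_of_ne_zero (by rintro rfl; simp at hn)
      have hlt : m < p * m := by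
        have := hp.one_lt
        nlinarith
      rw [mul_comm p m]
      by_cases hpN : p ∣ N
      · obtain ⟨c, hc⟩ := hU p hp hpN
        rw [coeff_of_heckeU_eq g hp c hc m, ih m hlt, mul_zero]
      · obtain ⟨c, hc⟩ := hT p hp hpN
        have := coeff_of_heckeT_eq g hp c hc m
        rw [ih m hlt, mul_zero] at this
        by_cases hpm : p ∣ m
        · rw [if_pos hpm, ih (m / p) (lt_of_le_of_lt (Nat.div_le_self m p) hlt), mul_zero,
            add_zero] at this
          exact this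
        · rw [if_neg hpm, add_zero] at this
          exact this

/-- The eigenvalue of `T_p` on a normalised form is `a_p`. -/
theorem eigenvalue_T_eq_coeff (g : CuspForm (Gamma0 N) 2) (h1 : qCoeff ⇑g 1 = 1)
    {p : ℕ} (hp : p.Prime) (c : ℂ) (h : heckeT 2 p ⇑g = c • ⇑g) : c = qCoeff ⇑g p := by
  have := coeff_of_heckeT_eq g hp c h 1
  have hp1 : ¬ p ∣ 1 := fun h => hp.one_lt.ne' (Nat.dvd_one.mp h)
  rw [if_neg hp1, h1, one_mul, add_zero, mul_one] at this
  exact this.symm

/-- The eigenvalue of `U_p` on a normalised form is `a_p`. -/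
theorem eigenvalue_U_eq_coeff (g : CuspForm (Gamma0 N) 2) (h1 : qCoeff ⇑g 1 = 1)
    {p : ℕ} (hp : p.Prime) (c : ℂ) (h : heckeU 2 p ⇑g = c • ⇑g) : c = qCoeff ⇑g p := by
  have := coeff_of_heckeU_eq g hp c h 1
  rw [h1, one_mul, mul_one] at this
  exact this.symm

/-- **(E1')** A cusp form with `a₁ = 1` which is an eigenvector of every `T_p` (`p ∤ N`) and every
`U_p` (`p ∣ N`) is a normalized eigenform in the sense of the Prelude. -/
theorem isNormalizedEigenform_of_eigen (g : CuspForm (Gamma0 N) 2) (h1 : qCoeff ⇑g 1 = 1)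
    (hT : ∀ p : ℕ, p.Prime → ¬ p ∣ N → ∃ c : ℂ, heckeT 2 p ⇑g = c • ⇑g)
    (hU : ∀ p : ℕ, p.Prime → p ∣ N → ∃ c : ℂ, heckeU 2 p ⇑g = c • ⇑g) :
    g.IsNormalizedEigenform := by
  -- the two recursions
  have recT : ∀ p : ℕ, p.Prime → ¬ p ∣ N → ∀ n : ℕ,
      qCoeff ⇑g (n * p) + (if p ∣ n then (p : ℂ) * qCoeff ⇑g (n / p) else 0)
        = qCoeff ⇑g p * qCoeff ⇑g n := by
    intro p hp hpN n
    obtain ⟨c, hc⟩ := hT p hp hpN
    rw [← eigenvalue_T_eq_coeff g h1 hp c hc]
    exact coeff_of_heckeT_eq g hp c hc n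
  have recU : ∀ p : ℕ, p.Prime → p ∣ N → ∀ n : ℕ,
      qCoeff ⇑g (n * p) = qCoeff ⇑g p * qCoeff ⇑g n := by
    intro p hp hpN n
    obtain ⟨c, hc⟩ := hU p hp hpN
    rw [← eigenvalue_U_eq_coeff g h1 hp c hc]
    exact coeff_of_heckeU_eq g hp c hc n
  refine ⟨h1, ?_, ?_, ?_⟩
  · -- multiplicativity
    intro m n
    induction n using Nat.strong_induction_on generalizing m with
    | _ n ih =>
      intro hmn
      rcases Nat.eq_zero_or_pos n with rfl | hn
      · have hm1 : m = 1 := by simpa using hmn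
        subst hm1
        simp [h1]
      rcases Nat.eq_or_lt_of_le (Nat.succ_le_of_lt hn) with h | h
      · rw [← h]; simp [h1]
      have hn1 : n ≠ 1 := by omega
      obtain ⟨p, hp, hpn⟩ := Nat.exists_prime_and_dvd hn1
      obtain ⟨n', rfl⟩ := hpn
      have hn' : 0 < n' := Nat.pos_of_ne_zero (by rintro rfl; simp at hn)
      have hlt : n' < p * n' := by
        have := hp.one_lt
        nlinarith
      have hmn' : Nat.Coprime m n' := Nat.Coprime.coprime_mul_left_right hmn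
      have hmp : Nat.Coprime m p := Nat.Coprime.coprime_mul_right_right hmn
      have hpm : ¬ p ∣ m := fun h =>
        hp.one_lt.ne' (Nat.Coprime.eq_one_of_dvd hmp.symm h)
      have e1 : m * (p * n') = m * n' * p := by ring
      have e2 : p * n' = n' * p := by ring
      have ihn' := ih n' hlt m hmn'
      by_cases hpN : p ∣ N
      · rw [e1, recU p hp hpN (m * n'), ihn', e2, recU p hp hpN n']
        ring
      · have r1 := recT p hp hpN (m * n')
        have r2 := recT p hp hpN n'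
        by_cases hpn' : p ∣ n'
        · have hd : p ∣ m * n' := Dvd.dvd.mul_left hpn' m
          rw [if_pos hd] at r1
          rw [if_pos hpn'] at r2
          have hlt2 : n' / p < p * n' := lt_of_le_of_lt (Nat.div_le_self n' p) hlt
          have hcop2 : Nat.Coprime m (n' / p) :=
            Nat.Coprime.coprime_dvd_right (Nat.div_dvd_of_dvd hpn') hmn'
          have e3 : m * n' / p = m * (n' / p) := Nat.mul_div_assoc m hpn'
          rw [e3, ih (n' / p) hlt2 m hcop2, ihn'] at r1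
          rw [e1, e2]
          linear_combination r1 - qCoeff ⇑g m * r2
        · have hd : ¬ p ∣ m * n' := fun h =>
            (hp.dvd_mul.mp h).elim hpm hpn'
          rw [if_neg hd, add_zero, ihn'] at r1
          rw [if_neg hpn', add_zero] at r2
          rw [e1, e2, r1, r2]
          ring
  · intro p r hp hpN
    have := recT p hp hpN (p ^ (r + 1))
    have hd : p ∣ p ^ (r + 1) := dvd_pow_self p (by omega)
    rw [if_pos hd] at this
    have e1 : p ^ (r + 1) * p = p ^ (r + 2) := by ring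
    have e2 : p ^ (r + 1) / p = p ^ r := by
      rw [pow_succ]; exact Nat.mul_div_cancel _ hp.pos
    rw [e1, e2] at this
    linear_combination this
  · intro p r hp hpN
    have := recU p hp hpN (p ^ (r + 1))
    have e1 : p ^ (r + 1) * p = p ^ (r + 2) := by ring
    rw [e1] at this
    exact this

end Fermat.Agent.Lib.Newform.H683
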