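/-
NEWFORM library (helper683) — `S_k(Γ₀(N))` is finite-dimensional (from the Prelude Sturm bound).
-/
import Fermat.Agent.Lib.Newform.H683.Coeff
import Fermat.Prelude.Thm_ModularForm_sturm_bound_Gamma0

set_option autoImplicit false

open CongruenceSubgroup ModularFormClass ModularForm UpperHalfPlane

namespace Fermat.Agent.Lib.Newform.H683

variable {N : ℕ}

theorem qCoeff_add_cusp (k : ℤ) (f g : CuspForm (Gamma0 N) k) (n : ℕ) :
    qCoeff ⇑(f + g) n = qCoeff ⇑f n + qCoeff ⇑g n := by
  have h1 := CongruenceSubgroup.one_mem_strictPeriods_Gamma0 N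
  unfold qCoeff
  rw [FunLike.coe_add, UpperHalfPlane.qExpansion_add
    (ModularFormClass.analyticAt_cuspFunction_zero f one_pos h1)
    (ModularFormClass.analyticAt_cuspFunction_zero g one_pos h1)]
  simp

/-- the `n`-th `q`-coefficient as a linear functional on cusp forms -/
noncomputable def coeffLin (N : ℕ) (k : ℤ) (n : ℕ) : CuspForm (Gamma0 N) k →ₗ[ℂ] ℂ where
  toFun f := qCoeff ⇑f n
  map_add' f g := qCoeff_add_cusp k f g n
  map_smul' c f := by
    simp only [RingHom.id_apply, smul_eq_mul]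
    exact qCoeff_smul_cusp k c f n

@[simp] theorem coeffLin_apply (N : ℕ) (k : ℤ) (n : ℕ) (f : CuspForm (Gamma0 N) k) :
    coeffLin N k n f = qCoeff ⇑f n := rfl

/-- the Sturm truncation map -/
noncomputable def sturmTrunc (N : ℕ) (k : ℤ) :
    CuspForm (Gamma0 N) k →ₗ[ℂ] (Fin ((k * (Gamma0 N).index).toNat / 12 + 1) → ℂ) :=
  LinearMap.pi fun i => coeffLin N k i

theorem sturmTrunc_injective (N : ℕ) [NeZero N] (k : ℤ) :
    Function.Injective (sturmTrunc N k) := by
  rw [← LinearMap.ker_eq_bot, LinearMap.ker_eq_bot']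
  intro f hf
  have hg : CuspForm.toModularFormₗ f = 0 := by
    refine ModularForm.sturm_bound_Gamma0 N _ (fun n hn => ?_)
    have := congrFun hf ⟨n, Nat.lt_succ_of_le hn⟩
    have h2 : (⇑(CuspForm.toModularFormₗ f) : ℍ → ℂ) = ⇑f := rfl
    rw [h2]
    simpa [sturmTrunc, qCoeff] using this
  exact CuspForm.toModularFormₗ_injective (by simpa using hg)

theorem finiteDimensional_cuspForm (N : ℕ) [NeZero N] (k : ℤ) :
    FiniteDimensional ℂ (CuspForm (Gamma0 N) k) :=
  FiniteDimensional.of_injective (sturmTrunc N k) (sturmTrunc_injective N k)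

end Fermat.Agent.Lib.Newform.H683
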