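/-
NEWFORM library (helper683) — linear algebra: a commuting family of endomorphisms of a
finite-dimensional complex vector space has a common eigenvector in every nonzero stable subspace.
-/
import Mathlib

set_option autoImplicit false

namespace Fermat.Agent.Lib.Newform.H683

open Module

/-- A commuting family of endomorphisms of a finite-dimensional vector space over an
algebraically closed field has a common eigenvector in every nonzero stable subspace. -/
theorem exists_common_eigenvector {K V : Type*} [Field K] [IsAlgClosed K] [AddCommGroup V]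
    [Module K V] [FiniteDimensional K V] {ι : Type*} (T : ι → Module.End K V)
    (hcomm : ∀ i j, Commute (T i) (T j)) :
    ∀ (E : Submodule K V), E ≠ ⊥ → (∀ i, ∀ v ∈ E, T i v ∈ E) →
      ∃ v ∈ E, v ≠ 0 ∧ ∀ i, ∃ c : K, T i v = c • v := by
  intro E
  induction h : finrank K E using Nat.strong_induction_on generalizing E with
  | _ d ih =>
    intro hE hstab
    by_cases hsc : ∀ i, ∃ c : K, ∀ v ∈ E, T i v = c • v
    · obtain ⟨v, hv, hv0⟩ := Submodule.exists_mem_ne_zero_of_ne_bot hE
      exact ⟨v, hv, hv0, fun i => (hsc i).elim fun c hc => ⟨c, hc v hv⟩⟩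
    · push Not at hsc
      obtain ⟨i, hi⟩ := hsc
      -- an eigenvalue of `T i` on `E`
      have hmaps : ∀ v ∈ E, T i v ∈ E := hstab i
      let Ti : Module.End K E := (T i).restrict hmaps
      haveI : Nontrivial E := Submodule.nontrivial_iff_ne_bot.mpr hE
      obtain ⟨c, hc⟩ := Module.End.exists_eigenvalue Ti
      obtain ⟨w, hw⟩ := hc.exists_hasEigenvector
      -- the eigenspace inside `E`
      let E' : Submodule K V := E ⊓ LinearMap.ker (T i - c • (1 : Module.End K V))
      have hE'le : E' ≤ E := inf_le_left
      have hwE' : (w : V) ∈ E' := by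
        refine ⟨w.2, ?_⟩
        have h1 : Ti w = c • w := hw.apply_eq_smul
        have h2 : T i (w : V) = c • (w : V) := by
          have := congrArg (fun x : E => (x : V)) h1
          simpa [Ti] using this
        simp [LinearMap.mem_ker, h2]
      have hw0 : (w : V) ≠ 0 := fun h0 => hw.2 (Subtype.ext h0)
      have hE'ne : E' ≠ ⊥ := fun hbot => hw0 (by
        have : (w : V) ∈ (⊥ : Submodule K V) := hbot ▸ hwE'
        simpa using this)
      have hE'stab : ∀ j, ∀ v ∈ E', T j v ∈ E' := by
        intro j v hv
        refine ⟨hstab j v hv.1, ?_⟩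
        have hv2 : T i v = c • v := by
          have := hv.2
          simpa [LinearMap.mem_ker, sub_eq_zero] using this
        have hcm : T i (T j v) = T j (T i v) := by
          have := congrArg (fun f : Module.End K V => f v) (hcomm i j).eq
          simpa using this
        simp [LinearMap.mem_ker, hcm, hv2]
      have hlt : finrank K E' < finrank K E := by
        apply Submodule.finrank_lt_finrank_of_lt
        refine lt_of_le_of_ne hE'le ?_
        intro heq
        obtain ⟨v, hvE, hv⟩ := hi c
        apply hv
        have hv' : v ∈ E' := heq ▸ hvE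
        have := hv'.2
        simpa [LinearMap.mem_ker, sub_eq_zero] using this
      obtain ⟨v, hv, hv0, hveig⟩ := ih (finrank K E') (h ▸ hlt) E' rfl hE'ne hE'stab
      exact ⟨v, hE'le hv, hv0, hveig⟩

end Fermat.Agent.Lib.Newform.H683
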