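/-
NEWFORM library (helper683) — part 3: EXTRACTION of a normalized eigenform from any nonzero
common eigenvector of the good Hecke operators, and existence of a newform below any eigenform.
-/
import Fermat.Agent.Lib.Newform.H683.Eigen
import Fermat.Agent.Lib.Newform.H683.FinDim
import Fermat.Agent.Lib.Newform.H683.LinAlg
import Fermat.Prelude.Thm_CuspForm_heckeTLin_comm
import Fermat.Prelude.Thm_CuspForm_heckeTLin_heckeULin_comm
import Fermat.Prelude.Thm_CuspForm_heckeULin_comm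

set_option autoImplicit false

open CongruenceSubgroup ModularFormClass ModularForm UpperHalfPlane

namespace Fermat.Agent.Lib.Newform.H683

variable {M : ℕ}

/-- The full family of Hecke operators at level `M`, indexed by the primes:
`T_p` for `p ∤ M` and `U_p` for `p ∣ M`. -/
noncomputable def heckeFamily (M : ℕ) [NeZero M] (p : Nat.Primes) :
    Module.End ℂ (CuspForm (Gamma0 M) 2) :=
  if hpM : (p : ℕ) ∣ M then CuspForm.heckeULin 2 hpM else CuspForm.heckeTLin 2 p.2 hpM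

theorem heckeFamily_of_dvd [NeZero M] (p : Nat.Primes) (hpM : (p : ℕ) ∣ M) :
    heckeFamily M p = CuspForm.heckeULin 2 hpM := by
  simp [heckeFamily, hpM]

theorem heckeFamily_of_not_dvd [NeZero M] (p : Nat.Primes) (hpM : ¬ (p : ℕ) ∣ M) :
    heckeFamily M p = CuspForm.heckeTLin 2 p.2 hpM := by
  simp [heckeFamily, hpM]

theorem heckeFamily_commute [NeZero M] (p q : Nat.Primes) :
    Commute (heckeFamily M p) (heckeFamily M q) := by
  by_cases hp : (p : ℕ) ∣ M <;> by_cases hq : (q : ℕ) ∣ M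
  · rw [heckeFamily_of_dvd p hp, heckeFamily_of_dvd q hq]
    exact CuspForm.heckeULin_comm 2 hp hq
  · rw [heckeFamily_of_dvd p hp, heckeFamily_of_not_dvd q hq]
    exact (CuspForm.heckeTLin_heckeULin_comm 2 q.2 hq hp).symm
  · rw [heckeFamily_of_not_dvd p hp, heckeFamily_of_dvd q hq]
    exact CuspForm.heckeTLin_heckeULin_comm 2 p.2 hp hq
  · rw [heckeFamily_of_not_dvd p hp, heckeFamily_of_not_dvd q hq]
    exact CuspForm.heckeTLin_comm 2 p.2 hp q.2 hq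

/-- The simultaneous eigenspace of the `T_ℓ`, `ℓ ∤ M`, `ℓ ∈ P`, for the eigenvalues `a ℓ`. -/
noncomputable def eigenSub (M : ℕ) [NeZero M] (P : ℕ → Prop) (a : ℕ → ℂ) :
    Submodule ℂ (CuspForm (Gamma0 M) 2) where
  carrier := {v | ∀ ℓ : ℕ, ℓ.Prime → ¬ ℓ ∣ M → P ℓ → heckeT 2 ℓ ⇑v = a ℓ • ⇑v}
  add_mem' := by
    intro v w hv hw ℓ h1 h2 h3
    rw [FunLike.coe_add, heckeT_add, hv ℓ h1 h2 h3, hw ℓ h1 h2 h3, smul_add]
  zero_mem' := by
    intro ℓ _ _ _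
    rw [FunLike.coe_zero, heckeT_zero, smul_zero]
  smul_mem' := by
    intro c v hv ℓ h1 h2 h3
    rw [FunLike.coe_smul, heckeT_smul, hv ℓ h1 h2 h3, smul_comm]

theorem mem_eigenSub [NeZero M] (P : ℕ → Prop) (a : ℕ → ℂ) (v : CuspForm (Gamma0 M) 2) :
    v ∈ eigenSub M P a ↔
      ∀ ℓ : ℕ, ℓ.Prime → ¬ ℓ ∣ M → P ℓ → heckeT 2 ℓ ⇑v = a ℓ • ⇑v := Iff.rfl

theorem eigenSub_stable [NeZero M] (P : ℕ → Prop) (a : ℕ → ℂ) (p : Nat.Primes)
    (v : CuspForm (Gamma0 M) 2) (hv : v ∈ eigenSub M P a) :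
    heckeFamily M p v ∈ eigenSub M P a := by
  intro ℓ hℓ hℓM hPℓ
  have hcm := heckeFamily_commute (M := M) ⟨ℓ, hℓ⟩ p
  rw [heckeFamily_of_not_dvd ⟨ℓ, hℓ⟩ hℓM] at hcm
  have h1 : CuspForm.heckeTLin 2 hℓ hℓM (heckeFamily M p v)
      = heckeFamily M p (CuspForm.heckeTLin 2 hℓ hℓM v) := by
    have := congrArg (fun f : Module.End ℂ (CuspForm (Gamma0 M) 2) => f v) hcm.eq
    simpa using this
  have h2 : CuspForm.heckeTLin 2 hℓ hℓM v = a ℓ • v := by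
    apply DFunLike.coe_injective
    rw [CuspForm.coe_heckeTLin_apply, hv ℓ hℓ hℓM hPℓ, FunLike.coe_smul]
  rw [h2, map_smul] at h1
  have := congrArg (fun g : CuspForm (Gamma0 M) 2 => (⇑g : ℍ → ℂ)) h1
  simpa using this

/-- **(E2) Extraction.** If some nonzero cusp form of level `M` is an eigenvector of the `T_ℓ`
for all primes `ℓ ∤ M` in a set `P`, with eigenvalues `a ℓ`, then there is a *normalized
eigenform* (Prelude sense: all `T_p`, `p ∤ M`, and all `U_p`, `p ∣ M`) of level `M` whose `ℓ`-th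
coefficient is `a ℓ` for all those `ℓ`. -/
theorem exists_normalizedEigenform_of_eigenvector [NeZero M] (P : ℕ → Prop) (a : ℕ → ℂ)
    (h : CuspForm (Gamma0 M) 2) (hh : h ≠ 0)
    (heig : ∀ ℓ : ℕ, ℓ.Prime → ¬ ℓ ∣ M → P ℓ → heckeT 2 ℓ ⇑h = a ℓ • ⇑h) :
    ∃ g : CuspForm (Gamma0 M) 2, g.IsNormalizedEigenform ∧
      ∀ ℓ : ℕ, ℓ.Prime → ¬ ℓ ∣ M → P ℓ → qCoeff ⇑g ℓ = a ℓ := by
  haveI := finiteDimensional_cuspForm M 2
  have hE : eigenSub M P a ≠ ⊥ := by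
    intro hbot
    have : h ∈ (⊥ : Submodule ℂ (CuspForm (Gamma0 M) 2)) := hbot ▸ heig
    exact hh (by simpa using this)
  obtain ⟨g₀, hg₀E, hg₀, hg₀eig⟩ := exists_common_eigenvector (heckeFamily M)
    heckeFamily_commute (eigenSub M P a) hE (fun p v hv => eigenSub_stable P a p v hv)
  have hT : ∀ p : ℕ, p.Prime → ¬ p ∣ M → ∃ c : ℂ, heckeT 2 p ⇑g₀ = c • ⇑g₀ := by
    intro p hp hpM
    obtain ⟨c, hc⟩ := hg₀eig ⟨p, hp⟩
    rw [heckeFamily_of_not_dvd ⟨p, hp⟩ hpM] at hc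
    refine ⟨c, ?_⟩
    have := congrArg (fun g : CuspForm (Gamma0 M) 2 => (⇑g : ℍ → ℂ)) hc
    simpa using this
  have hU : ∀ p : ℕ, p.Prime → p ∣ M → ∃ c : ℂ, heckeU 2 p ⇑g₀ = c • ⇑g₀ := by
    intro p hp hpM
    obtain ⟨c, hc⟩ := hg₀eig ⟨p, hp⟩
    rw [heckeFamily_of_dvd ⟨p, hp⟩ hpM] at hc
    refine ⟨c, ?_⟩
    have := congrArg (fun g : CuspForm (Gamma0 M) 2 => (⇑g : ℍ → ℂ)) hc
    simpa using this
  have h1 : qCoeff ⇑g₀ 1 ≠ 0 := fun h0 =>
    hg₀ (eq_zero_of_eigen_of_coeff_one_eq_zero g₀ hT hU h0)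
  set c₀ : ℂ := (qCoeff ⇑g₀ 1)⁻¹ with hc₀
  have hc₀ne : c₀ ≠ 0 := inv_ne_zero h1
  refine ⟨c₀ • g₀, ?_, ?_⟩
  · apply isNormalizedEigenform_of_eigen
    · rw [qCoeff_smul_cusp, hc₀, inv_mul_cancel₀ h1]
    · intro p hp hpM
      obtain ⟨c, hc⟩ := hT p hp hpM
      exact ⟨c, by rw [FunLike.coe_smul, heckeT_smul, hc, smul_comm]⟩
    · intro p hp hpM
      obtain ⟨c, hc⟩ := hU p hp hpM
      exact ⟨c, by rw [FunLike.coe_smul, heckeU_smul, hc, smul_comm]⟩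
  · intro ℓ hℓ hℓM hPℓ
    have hmem : c₀ • g₀ ∈ eigenSub M P a := Submodule.smul_mem _ _ hg₀E
    have := eigenvalue_T_eq_coeff (c₀ • g₀)
      (by rw [qCoeff_smul_cusp, hc₀, inv_mul_cancel₀ h1]) hℓ (a ℓ) (hmem ℓ hℓ hℓM hPℓ)
    exact this.symm

/-- **(E3) Newform below.** Every normalized eigenform `f` of level `N` shares its good
eigenvalues with a *newform* (Prelude sense) of some level `M ∣ N`. -/
theorem exists_newform_below {N : ℕ} (hN : N ≠ 0) (f : CuspForm (Gamma0 N) 2)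
    (hf : f.IsNormalizedEigenform) :
    ∃ (M : ℕ) (_ : M ∣ N) (g : CuspForm (Gamma0 M) 2), g.IsNewform ∧
      ∀ ℓ : ℕ, ℓ.Prime → ¬ ℓ ∣ N → qCoeff ⇑g ℓ = qCoeff ⇑f ℓ := by
  induction N using Nat.strong_induction_on with
  | _ N ih =>
    by_cases hnew : f.IsNewform
    · exact ⟨N, dvd_rfl, f, hnew, fun _ _ _ => rfl⟩
    · have : ∃ M : ℕ, M ∣ N ∧ M ≠ N ∧ CuspForm.GoodEigensystemOccursAt f M := by
        by_contra hcon
        push Not at hcon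
        exact hnew ⟨hf, fun M hM hMN hocc => hcon M hM hMN hocc⟩
      obtain ⟨M, hMN, hne, g, hg, hgf⟩ := this
      have hM0 : M ≠ 0 := fun h0 => hN (by simpa [h0] using hMN)
      have hlt : M < N := lt_of_le_of_ne (Nat.le_of_dvd (Nat.pos_of_ne_zero hN) hMN) hne
      obtain ⟨M', hM'M, g', hg', hg'g⟩ := ih M hlt hM0 g hg
      refine ⟨M', hM'M.trans hMN, g', hg', fun ℓ hℓ hℓN => ?_⟩
      rw [hg'g ℓ hℓ (fun h => hℓN (h.trans hMN)), hgf ℓ hℓ hℓN]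

end Fermat.Agent.Lib.Newform.H683
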