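/-
NEWFORM library (helper683) — the leaves `EigenT`, `EigenU` (and, again, `Occurs`, `Descent`)
of the frozen interface `Fermat.Agent.Lib.Newform.H958` (Spec.lean), from `H683/Eigen.lean`
and `H683/Extract.lean`.
-/
import Fermat.Agent.Lib.Newform.H958.Spec
import Fermat.Agent.Lib.Newform.H683.Extract

set_option autoImplicit false

open CongruenceSubgroup ModularFormClass ModularForm UpperHalfPlane

namespace Fermat.Agent.Lib.Newform.H683

theorem eigenT : Fermat.Agent.Lib.Newform.H958.EigenT :=
  fun _ _ hg _ hp hpN => heckeTLin_eq_of_eigenform hg hp hpN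

theorem eigenU : Fermat.Agent.Lib.Newform.H958.EigenU :=
  fun _ _ _ hg _ hp hpN => heckeULin_eq_of_eigenform hg hp hpN

theorem occurs' : Fermat.Agent.Lib.Newform.H958.Occurs := by
  intro M _ h hh P a heig
  refine exists_normalizedEigenform_of_eigenvector (fun ℓ => ℓ ∈ P) a h hh ?_
  intro ℓ hℓ hℓM hP
  have := congrArg (fun g : CuspForm (Gamma0 M) 2 => (⇑g : ℍ → ℂ)) (heig ℓ hℓ hℓM hP)
  simpa using this

theorem descent' : Fermat.Agent.Lib.Newform.H958.Descent :=
  fun N _ f hf => exists_newform_below (NeZero.ne N) f hf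

end Fermat.Agent.Lib.Newform.H683
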