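/-
NEWFORM library (helper683) — ASSEMBLY of the targets of the frozen interface
`Fermat.Agent.Lib.Newform.H958` (Spec.lean) from the leaves on main:

* `EigenT`, `EigenU`  : `H683/SpecLeaves.lean`
* `Incl`, `Occurs`    : `H958/Leaves.lean` (helper958, helper863)
* `LowerU`            : `H563/LowerU.lean` (helper563)
* `TraceAL`           : `H923/TraceALProof.lean` (helper923, helper503)

Unconditional results:

* `newformBadPrimeCoeff N : CuspForm.NewformBadPrimeCoeff N` (Prelude target) for `N ≠ 0`;
* `badCoeffAt`, `descent_newform`, `stabilisation`.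
-/
import Fermat.Agent.Lib.Newform.H958.Leaves
import Fermat.Agent.Lib.Newform.H683.SpecLeaves
import Fermat.Agent.Lib.Newform.H563.LowerU
import Fermat.Agent.Lib.Newform.H923.TraceALProof

set_option autoImplicit false

open CongruenceSubgroup ModularFormClass

namespace Fermat.Agent.Lib.Newform.H683

open Fermat.Agent.Lib.Newform

/-- **BAD-AT** (unconditional). -/
theorem badCoeffAt : H958.BadCoeffAt :=
  H958.badCoeffAt_of eigenT eigenU H958.occurs H563.lowerU H923.traceAL

/-- **BAD** (unconditional): the Prelude's `NewformBadPrimeCoeff` at every positive level. -/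
theorem badCoeff : H958.BadCoeff := H958.badCoeff_of badCoeffAt

/-- The Prelude target: for a newform `f` of level `N` and a prime `q ∣ N`,
`a_q² = 1` if `q ∥ N` and `a_q = 0` if `q² ∣ N`. -/
theorem newformBadPrimeCoeff (N : ℕ) [NeZero N] : CuspForm.NewformBadPrimeCoeff N :=
  badCoeff N

/-- **STAB** (unconditional). -/
theorem stabilisation : H958.Stab := H958.stab_of eigenT H958.incl H958.occurs

/-- **DESCENT** (unconditional). -/
theorem descent_newform : H958.Descent := H958.descent

/-- Explicit form: the coefficient at `q ∥ N` of a newform. -/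
theorem qCoeff_sq_eq_one {N : ℕ} [NeZero N] {f : CuspForm (Gamma0 N) 2} (hf : f.IsNewform)
    {q : ℕ} (hq : q.Prime) (hqN : q ∣ N) (hq2 : ¬ q ^ 2 ∣ N) : qCoeff ⇑f q ^ 2 = 1 :=
  (newformBadPrimeCoeff N f hf q hq hqN).1 hq2

/-- Explicit form: the coefficient at `q² ∣ N` of a newform. -/
theorem qCoeff_eq_zero {N : ℕ} [NeZero N] {f : CuspForm (Gamma0 N) 2} (hf : f.IsNewform)
    {q : ℕ} (hq : q.Prime) (hq2 : q ^ 2 ∣ N) : qCoeff ⇑f q = 0 :=
  (newformBadPrimeCoeff N f hf q hq (dvd_trans (dvd_pow_self q two_ne_zero) hq2)).2 hq2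

end Fermat.Agent.Lib.Newform.H683
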