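/-
NEWFORM library, block X (helper683) — **X5 Deplete**: multiplying the Dirichlet series of a
normalized eigenform by the Euler polynomials at the primes of a finite set `T` removes the
coefficients `a_n` with `gcd(n, T) ≠ 1`.

`deplete_of : DirichletSeries → Deplete` (frozen interface `H958/X/Spec.lean`).
-/
import Fermat.Agent.Lib.Newform.H958.X.Spec
import Fermat.Agent.Lib.Newform.H683.Eigen

set_option autoImplicit false

open CongruenceSubgroup UpperHalfPlane Complex Polynomial ModularFormClass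

namespace Fermat.Agent.Lib.Newform.H683

open Fermat.Agent.Lib.Newform.H958.X

/-! ### Shifting a Dirichlet series by a prime -/

/-- the shift `b ↦ (n ↦ [p ∣ n] b (n / p))` on coefficient sequences -/
def dShift (p : ℕ) (b : ℕ → ℂ) (n : ℕ) : ℂ := if p ∣ n then b (n / p) else 0

theorem dShift_mul {p : ℕ} (hp : 0 < p) (b : ℕ → ℂ) (m : ℕ) : dShift p b (m * p) = b m := by
  simp [dShift, Nat.mul_div_cancel m hp]

theorem dShift_of_not_dvd {p : ℕ} (b : ℕ → ℂ) {n : ℕ} (h : ¬ p ∣ n) : dShift p b n = 0 := by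
  simp [dShift, h]

theorem hasSum_dShift {p : ℕ} (hp : 0 < p) (b : ℕ → ℂ) (s L : ℂ)
    (h : HasSum (fun n : ℕ => b n / (n : ℂ) ^ s) L) :
    HasSum (fun n : ℕ => dShift p b n / (n : ℂ) ^ s) ((p : ℂ) ^ (-s) * L) := by
  have hinj : Function.Injective (fun m : ℕ => m * p) := fun a c hac =>
    Nat.eq_of_mul_eq_mul_right hp hac
  have hzero : ∀ x : ℕ, x ∉ Set.range (fun m : ℕ => m * p) →
      dShift p b x / (x : ℂ) ^ s = 0 := by
    intro x hx
    have : ¬ p ∣ x := fun ⟨m, hm⟩ => hx ⟨m, by simp [hm, mul_comm]⟩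
    simp [dShift, this]
  rw [← hinj.hasSum_iff hzero]
  have hfun : ((fun n : ℕ => dShift p b n / (n : ℂ) ^ s) ∘ fun m : ℕ => m * p)
      = fun m : ℕ => (p : ℂ) ^ (-s) * (b m / (m : ℂ) ^ s) := by
    funext m
    simp only [Function.comp_apply, dShift_mul hp]
    rw [Nat.cast_mul, natCast_mul_natCast_cpow, cpow_neg]
    field_simp
  rw [hfun]
  exact h.mul_left _

/-! ### The local relation -/

/-- the depleted coefficient sequence -/
noncomputable def depl (T : Finset ℕ) (a : ℕ → ℂ) (n : ℕ) : ℂ :=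
  haveI : Decidable (∀ p ∈ T, ¬ p ∣ n) := Classical.dec _
  if ∀ p ∈ T, ¬ p ∣ n then a n else 0

theorem depl_pos {T : Finset ℕ} {a : ℕ → ℂ} {n : ℕ} (h : ∀ p ∈ T, ¬ p ∣ n) :
    depl T a n = a n := by
  unfold depl; exact if_pos h

theorem depl_neg {T : Finset ℕ} {a : ℕ → ℂ} {n : ℕ} (h : ¬ ∀ p ∈ T, ¬ p ∣ n) :
    depl T a n = 0 := by
  unfold depl; exact if_neg h

theorem depl_insert_eq {N : ℕ} (f : CuspForm (Gamma0 N) 2) (hf : f.IsNormalizedEigenform)
    (T : Finset ℕ) (hT : ∀ q ∈ T, q.Prime) {p : ℕ} (hp : p.Prime) (hpT : p ∉ T) (n : ℕ) :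
    depl (insert p T) (qCoeff ⇑f) n =
      depl T (qCoeff ⇑f) n - qCoeff ⇑f p * dShift p (depl T (qCoeff ⇑f)) n
        + (if p ∣ N then 0 else (p : ℂ)) * dShift p (dShift p (depl T (qCoeff ⇑f))) n := by
  have hcond : ∀ m : ℕ, (∀ q ∈ T, ¬ q ∣ m * p) ↔ (∀ q ∈ T, ¬ q ∣ m) := by
    intro m
    refine forall₂_congr (fun q hq => ?_)
    have hqp : ¬ q ∣ p := fun h =>
      hpT (((Nat.prime_dvd_prime_iff_eq (hT q hq) hp).mp h) ▸ hq)
    constructor
    · exact fun h h' => h (Dvd.dvd.mul_right h' p)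
    · intro h h'
      rcases ((hT q hq).dvd_mul).mp h' with h1 | h1
      · exact h h1
      · exact hqp h1
  by_cases hpn : p ∣ n
  · obtain ⟨m, rfl⟩ := hpn
    have hins : ¬ (∀ q ∈ insert p T, ¬ q ∣ p * m) := fun h =>
      h p (Finset.mem_insert_self p T) (dvd_mul_right p m)
    rw [depl_neg hins, mul_comm p m, dShift_mul hp.pos]
    by_cases hpN : p ∣ N
    · have r := coeff_mul_prime_of_dvd hf hp hpN m
      rw [if_pos hpN, zero_mul, add_zero]
      by_cases hm : ∀ q ∈ T, ¬ q ∣ m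
      · rw [depl_pos ((hcond m).mpr hm), depl_pos hm, r]; ring
      · rw [depl_neg (fun h => hm ((hcond m).mp h)), depl_neg hm]; ring
    · have r := coeff_mul_prime_of_not_dvd hf hp hpN m
      rw [if_neg hpN]
      by_cases hpm : p ∣ m
      · obtain ⟨m', rfl⟩ := hpm
        rw [mul_comm p m'] at r ⊢
        rw [if_pos (dvd_mul_left p m'), Nat.mul_div_cancel m' hp.pos] at r
        rw [dShift_mul hp.pos, dShift_mul hp.pos]
        by_cases hm : ∀ q ∈ T, ¬ q ∣ m'
        · have hm1 : ∀ q ∈ T, ¬ q ∣ m' * p := (hcond m').mpr hm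
          have hm2 : ∀ q ∈ T, ¬ q ∣ m' * p * p := (hcond (m' * p)).mpr hm1
          rw [depl_pos hm2, depl_pos hm1, depl_pos hm]
          linear_combination (-1 : ℂ) * r
        · have hm1 : ¬ ∀ q ∈ T, ¬ q ∣ m' * p := fun h => hm ((hcond m').mp h)
          have hm2 : ¬ ∀ q ∈ T, ¬ q ∣ m' * p * p := fun h => hm1 ((hcond (m' * p)).mp h)
          rw [depl_neg hm2, depl_neg hm1, depl_neg hm]; ring
      · rw [if_neg hpm, add_zero] at r
        rw [dShift_mul hp.pos, dShift_of_not_dvd _ hpm, mul_zero, add_zero]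
        by_cases hm : ∀ q ∈ T, ¬ q ∣ m
        · rw [depl_pos ((hcond m).mpr hm), depl_pos hm, r]; ring
        · rw [depl_neg (fun h => hm ((hcond m).mp h)), depl_neg hm]; ring
  · have hiff : (∀ q ∈ insert p T, ¬ q ∣ n) ↔ (∀ q ∈ T, ¬ q ∣ n) := by
      constructor
      · exact fun h q hq => h q (Finset.mem_insert_of_mem hq)
      · intro h q hq
        rcases Finset.mem_insert.mp hq with rfl | hq
        · exact hpn
        · exact h q hq
    rw [dShift_of_not_dvd _ hpn, dShift_of_not_dvd _ hpn, mul_zero, mul_zero, sub_zero, add_zero]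
    by_cases hm : ∀ q ∈ T, ¬ q ∣ n
    · rw [depl_pos (hiff.mpr hm), depl_pos hm]
    · rw [depl_neg (fun h => hm (hiff.mp h)), depl_neg hm]

/-- the Spec's depleted sequence is `depl` -/
theorem ite_eq_depl (T : Finset ℕ) (a : ℕ → ℂ) (n : ℕ) [Decidable (∀ p ∈ T, ¬ p ∣ n)] :
    (if ∀ p ∈ T, ¬ p ∣ n then a n else 0) = depl T a n := by
  by_cases h : ∀ p ∈ T, ¬ p ∣ n
  · rw [if_pos h, depl_pos h]
  · rw [if_neg h, depl_neg h]

theorem eval_eulerPoly (N : ℕ) (a : ℕ → ℂ) (p : ℕ) (x : ℂ) :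
    (eulerPoly N a p).eval x = 1 - a p * x + (if p ∣ N then 0 else (p : ℂ)) * x ^ 2 := by
  unfold eulerPoly
  by_cases h : p ∣ N
  · simp [h]
  · simp [h]

/-- **X5 Deplete**, from the Dirichlet series `X4`. -/
theorem deplete_of (h4 : DirichletSeries) : Deplete := by
  classical
  intro N _ f hf T
  induction T using Finset.induction_on with
  | empty =>
    intro _ s hs
    simpa using h4 N f s hs
  | insert p T hpT ih =>
    intro hT s hs
    have hp : p.Prime := hT p (Finset.mem_insert_self p T)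
    have hT' : ∀ q ∈ T, q.Prime := fun q hq => hT q (Finset.mem_insert_of_mem hq)
    have h0 := ih hT' s hs
    set L : ℂ := Lam f s * (2 / Gammaℂ s) *
      ∏ q ∈ T, (eulerPoly N (qCoeff ⇑f) q).eval ((q : ℂ) ^ (-s)) with hL
    have hb : HasSum (fun n : ℕ => depl T (qCoeff ⇑f) n / (n : ℂ) ^ s) L := by
      convert h0 using 2 with n
      rw [ite_eq_depl]
    have hb1 := hasSum_dShift hp.pos _ s L hb
    have hb2 := hasSum_dShift hp.pos _ s _ hb1
    have hsum := (hb.sub (hb1.mul_left (qCoeff ⇑f p))).add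
      (hb2.mul_left (if p ∣ N then 0 else (p : ℂ)))
    have hfun : (fun n : ℕ => (if ∀ q ∈ insert p T, ¬ q ∣ n then qCoeff ⇑f n else 0)
        / (n : ℂ) ^ s) =
        fun n : ℕ => depl T (qCoeff ⇑f) n / (n : ℂ) ^ s
          - qCoeff ⇑f p * (dShift p (depl T (qCoeff ⇑f)) n / (n : ℂ) ^ s)
          + (if p ∣ N then 0 else (p : ℂ)) *
              (dShift p (dShift p (depl T (qCoeff ⇑f))) n / (n : ℂ) ^ s) := by
      funext n
      rw [ite_eq_depl, depl_insert_eq f hf T hT' hp hpT n]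
      ring
    rw [hfun, Finset.prod_insert hpT, eval_eulerPoly]
    have hval : (L - qCoeff ⇑f p * ((p : ℂ) ^ (-s) * L)
        + (if p ∣ N then 0 else (p : ℂ)) * ((p : ℂ) ^ (-s) * ((p : ℂ) ^ (-s) * L)))
        = Lam f s * (2 / Gammaℂ s) *
          ((1 - qCoeff ⇑f p * (p : ℂ) ^ (-s)
              + (if p ∣ N then 0 else (p : ℂ)) * ((p : ℂ) ^ (-s)) ^ 2) *
            ∏ q ∈ T, (eulerPoly N (qCoeff ⇑f) q).eval ((q : ℂ) ^ (-s))) := by
      rw [hL]; ring
    rw [hval] at hsum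
    exact hsum

end Fermat.Agent.Lib.Newform.H683
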