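/-
NEWFORM library, block X (helper683) — **X5 Deplete**, unconditional
(`H958.X.dirichletSeries` is on main).
-/
import Fermat.Agent.Lib.Newform.H683.XDeplete
import Fermat.Agent.Lib.Newform.H958.X.Dirichlet

set_option autoImplicit false

namespace Fermat.Agent.Lib.Newform.H683

/-- **X5 Deplete** (unconditional). -/
theorem deplete : Fermat.Agent.Lib.Newform.H958.X.Deplete :=
  deplete_of Fermat.Agent.Lib.Newform.H958.X.dirichletSeries

end Fermat.Agent.Lib.Newform.H683
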