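/-
NEWFORM library, block X (helper683) — **X7 IndepLocal**: independence of the functions
`s ↦ p ^ (-s)`, `p` prime: an identity between products of one-variable polynomials in the
`p ^ (-s)` splits prime by prime, up to constants.

Pure algebra (Dedekind independence of characters + unique factorization); Mathlib only
(+ the frozen interface `H958/X/Spec.lean`).
-/
import Fermat.Agent.Lib.Newform.H958.X.Spec

set_option autoImplicit false

open Complex Polynomial

namespace Fermat.Agent.Lib.Newform.H683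

/-- the integer `∏ p ^ d p` attached to an exponent vector on the primes -/
noncomputable def primeMonomial (d : Nat.Primes →₀ ℕ) : ℕ := d.prod fun p k => (p : ℕ) ^ k

theorem primeMonomial_ne_zero (d : Nat.Primes →₀ ℕ) : primeMonomial d ≠ 0 := by
  unfold primeMonomial Finsupp.prod
  exact Finset.prod_ne_zero_iff.mpr fun p _ => pow_ne_zero _ p.2.ne_zero

theorem primeMonomial_injective : Function.Injective primeMonomial := by
  intro d d' h
  have hinj : Function.Injective (fun p : Nat.Primes => (p : ℕ)) := Nat.Primes.coe_nat_injective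
  have key : ∀ e : Nat.Primes →₀ ℕ,
      (primeMonomial e).factorization = Finsupp.mapDomain (fun p : Nat.Primes => (p : ℕ)) e := by
    intro e
    have h1 : primeMonomial e =
        (Finsupp.mapDomain (fun p : Nat.Primes => (p : ℕ)) e).prod (· ^ ·) := by
      unfold primeMonomial
      rw [Finsupp.prod_mapDomain_index_inj hinj]
    rw [h1]
    apply Nat.prod_pow_factorization_eq_self
    intro p hp
    have := Finsupp.mapDomain_support hp
    simp only [Finset.mem_image] at this
    obtain ⟨q, -, rfl⟩ := this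
    exact q.2
  have h2 := key d
  rw [h, key d'] at h2
  exact (Finsupp.mapDomain_injective hinj h2).symm

/-- the character `s ↦ ∏ (p ^ (-s)) ^ d p` of the additive group of `ℂ` -/
noncomputable def primeChar (d : Nat.Primes →₀ ℕ) : Multiplicative ℂ →* ℂ where
  toFun s := ∏ i ∈ d.support, (((i : ℕ) : ℂ) ^ (-(Multiplicative.toAdd s))) ^ d i
  map_one' := by simp
  map_mul' s t := by
    rw [← Finset.prod_mul_distrib]
    refine Finset.prod_congr rfl fun i _ => ?_
    have hi : ((i : ℕ) : ℂ) ≠ 0 := Nat.cast_ne_zero.mpr i.2.ne_zero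
    rw [← mul_pow, toAdd_mul, neg_add, cpow_add _ _ hi]

theorem primeChar_apply (d : Nat.Primes →₀ ℕ) (s : ℂ) :
    primeChar d (Multiplicative.ofAdd s) = ∏ i ∈ d.support, (((i : ℕ) : ℂ) ^ (-s)) ^ d i := rfl

theorem primeChar_injective : Function.Injective primeChar := by
  intro d d' h
  apply primeMonomial_injective
  have h1 := congrArg (fun χ : Multiplicative ℂ →* ℂ => χ (Multiplicative.ofAdd (-1))) h
  simp only [primeChar_apply, neg_neg, cpow_one] at h1
  have h2 : ∀ e : Nat.Primes →₀ ℕ,
      (∏ i ∈ e.support, (((i : ℕ) : ℂ)) ^ e i) = ((primeMonomial e : ℕ) : ℂ) := by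
    intro e
    unfold primeMonomial Finsupp.prod
    push_cast
    rfl
  rw [h2, h2] at h1
  exact_mod_cast h1

/-- **Independence**: a polynomial in the functions `p ^ (-s)` which vanishes identically
is zero. -/
theorem mvPolynomial_eq_zero_of_eval_primes (G : MvPolynomial Nat.Primes ℂ)
    (h : ∀ s : ℂ, MvPolynomial.eval (fun p : Nat.Primes => ((p : ℕ) : ℂ) ^ (-s)) G = 0) :
    G = 0 := by
  have hli : LinearIndependent ℂ
      ((fun f : Multiplicative ℂ →* ℂ => (f : Multiplicative ℂ → ℂ)) ∘ primeChar) :=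
    (linearIndependent_monoidHom (Multiplicative ℂ) ℂ).comp primeChar primeChar_injective
  have hsum : ∑ d ∈ G.support, G.coeff d •
      ((fun f : Multiplicative ℂ →* ℂ => (f : Multiplicative ℂ → ℂ)) ∘ primeChar) d = 0 := by
    funext s
    have := h (Multiplicative.toAdd s)
    rw [MvPolynomial.eval_eq] at this
    simp only [Finset.sum_apply, Pi.smul_apply, Function.comp_apply, smul_eq_mul, Pi.zero_apply]
    exact this
  have hzero := linearIndependent_iff'.mp hli G.support (fun d => G.coeff d) hsum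
  by_contra hG
  obtain ⟨d, hd⟩ := MvPolynomial.support_nonempty.mpr hG |>.exists_mem
    |> fun ⟨d, hd⟩ => (⟨d, hd⟩ : ∃ d, d ∈ G.support)
  exact (MvPolynomial.mem_support_iff.mp hd) (hzero d hd)

/-- a nonzero complex polynomial has a non-root; two of them have a common non-root -/
theorem exists_eval_ne_zero_both {P Q : ℂ[X]} (hP : P ≠ 0) (hQ : Q ≠ 0) :
    ∃ x : ℂ, P.eval x ≠ 0 ∧ Q.eval x ≠ 0 := by
  have hPQ : P * Q ≠ 0 := mul_ne_zero hP hQ
  by_contra hcon
  push Not at hcon
  apply hPQ
  apply Polynomial.eq_zero_of_infinite_isRoot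
  have : {x : ℂ | (P * Q).IsRoot x} = Set.univ := by
    ext x
    simp only [Set.mem_univ, iff_true, Polynomial.IsRoot, Polynomial.eval_mul]
    by_cases h : P.eval x = 0
    · simp [h]
    · simp [hcon x h]
  rw [this]
  exact Set.infinite_univ

/-- **X7 IndepLocal.** -/
theorem indepLocal : Fermat.Agent.Lib.Newform.H958.X.IndepLocal := by
  classical
  intro T hT A B hA hB hid q hq
  -- the two polynomials in the variables `X_p`
  let v : {p // p ∈ T} → Nat.Primes := fun p => ⟨p.1, hT p.1 p.2⟩
  let FA : MvPolynomial Nat.Primes ℂ :=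
    ∏ p ∈ T.attach, Polynomial.aeval (MvPolynomial.X (v p) : MvPolynomial Nat.Primes ℂ) (A p.1)
  let FB : MvPolynomial Nat.Primes ℂ :=
    ∏ p ∈ T.attach, Polynomial.aeval (MvPolynomial.X (v p) : MvPolynomial Nat.Primes ℂ) (B p.1)
  have hev : ∀ (P : ℕ → ℂ[X]) (x : Nat.Primes → ℂ),
      MvPolynomial.eval x (∏ p ∈ T.attach,
        Polynomial.aeval (MvPolynomial.X (v p) : MvPolynomial Nat.Primes ℂ) (P p.1))
        = ∏ p ∈ T.attach, (P p.1).eval (x (v p)) := by
    intro P x
    rw [map_prod]
    refine Finset.prod_congr rfl fun p _ => ?_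
    have := Polynomial.aeval_algHom_apply (MvPolynomial.aeval x : MvPolynomial Nat.Primes ℂ →ₐ[ℂ] ℂ)
      (MvPolynomial.X (v p)) (P p.1)
    rw [MvPolynomial.aeval_X] at this
    rw [← MvPolynomial.coe_aeval_eq_eval]
    simpa [Polynomial.aeval_def, Polynomial.eval₂_eq_eval_map] using this.symm
  have heq : FA = FB := by
    refine sub_eq_zero.mp (mvPolynomial_eq_zero_of_eval_primes (FA - FB) fun s => ?_)
    rw [map_sub, hev A, hev B, sub_eq_zero]
    have h1 := hid s
    rw [← Finset.prod_attach T, ← Finset.prod_attach T (fun p => (B p).eval ((p : ℂ) ^ (-s)))]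
      at h1
    exact h1
  -- good evaluation points
  have hex : ∀ p : ℕ, ∃ x : ℂ, p ∈ T → ((A p).eval x ≠ 0 ∧ (B p).eval x ≠ 0) := by
    intro p
    by_cases hp : p ∈ T
    · obtain ⟨x, hx⟩ := exists_eval_ne_zero_both (hA p hp) (hB p hp)
      exact ⟨x, fun _ => hx⟩
    · exact ⟨0, fun h => absurd h hp⟩
  choose x hx using hex
  -- specialise all variables except `X_q`
  let φ : MvPolynomial Nat.Primes ℂ →ₐ[ℂ] ℂ[X] :=
    MvPolynomial.aeval (fun p : Nat.Primes => if (p : ℕ) = q then (X : ℂ[X]) else C (x p))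
  have hφ : ∀ (P : ℕ → ℂ[X]),
      φ (∏ p ∈ T.attach,
        Polynomial.aeval (MvPolynomial.X (v p) : MvPolynomial Nat.Primes ℂ) (P p.1))
        = P q * C (∏ p ∈ T.erase q, (P p).eval (x p)) := by
    intro P
    rw [map_prod]
    have h1 : ∀ p : {p // p ∈ T},
        φ (Polynomial.aeval (MvPolynomial.X (v p) : MvPolynomial Nat.Primes ℂ) (P p.1))
          = (fun p : ℕ => if p = q then P p else C ((P p).eval (x p))) p.1 := by
      intro p
      rw [← Polynomial.aeval_algHom_apply, MvPolynomial.aeval_X]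
      by_cases hpq : p.1 = q
      · have : ((v p : Nat.Primes) : ℕ) = q := hpq
        simp only [this, if_true, hpq]
        exact Polynomial.aeval_X_left_apply _
      · have : ¬ ((v p : Nat.Primes) : ℕ) = q := hpq
        simp only [this, if_false, hpq]
        rw [Polynomial.C_eq_algebraMap, Polynomial.aeval_algebraMap_apply_eq_algebraMap_eval]
        rfl
    rw [Finset.prod_congr rfl (fun p _ => h1 p),
      Finset.prod_attach T (fun p : ℕ => if p = q then P p else C ((P p).eval (x p))),
      ← Finset.mul_prod_erase T _ hq, if_pos rfl, map_prod]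
    congr 1
    refine Finset.prod_congr rfl fun p hp => ?_
    rw [if_neg (Finset.ne_of_mem_erase hp)]
  have hAB : A q * C (∏ p ∈ T.erase q, (A p).eval (x p))
      = B q * C (∏ p ∈ T.erase q, (B p).eval (x p)) := by
    rw [← hφ A, ← hφ B]
    exact congrArg φ heq
  set α : ℂ := ∏ p ∈ T.erase q, (A p).eval (x p) with hα
  set β : ℂ := ∏ p ∈ T.erase q, (B p).eval (x p) with hβ
  have hα0 : α ≠ 0 := Finset.prod_ne_zero_iff.mpr fun p hp =>
    (hx p (Finset.mem_of_mem_erase hp)).1
  have hβ0 : β ≠ 0 := Finset.prod_ne_zero_iff.mpr fun p hp =>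
    (hx p (Finset.mem_of_mem_erase hp)).2
  refine ⟨β * α⁻¹, mul_ne_zero hβ0 (inv_ne_zero hα0), ?_⟩
  calc A q = A q * C α * C α⁻¹ := by
        rw [mul_assoc, ← C_mul, mul_inv_cancel₀ hα0, C_1, mul_one]
    _ = B q * C β * C α⁻¹ := by rw [hAB]
    _ = C (β * α⁻¹) * B q := by rw [C_mul]; ring

end Fermat.Agent.Lib.Newform.H683
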